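/-
S56 / ORD, leaf FIL-CARD.  `#Fil¹ = |k|`, and `Fil¹` is killed by `p`.
-/
import Fermat.Agent.S56.Ord.Defs

set_option autoImplicit false

namespace Fermat.Agent.S56.Ord

open Fermat.Agent.S55
open Fermat.Agent.S53 (M2 Gal)

variable {k : Type} [Field k]

/-- the underlying matrix of an element of `Fil¹`, as an additive map. -/
noncomputable def Card_matHom (q : Nat.Primes) (s : Gal →* M2 k) (N : M2 k)
    (hN : ∀ g : Gv q, ∃ u : k, s (ιv q g) * N * s (ιv q g)⁻¹ = u • N) :
    (filSub q s N hN).Mod →+ M2 k where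
  toFun x := ((ResMod.toRes (ιv q)).symm ((filSub q s N hN).incl x)).mat
  map_zero' := by rw [map_zero, map_zero]; rfl
  map_add' x y := by rw [map_add, map_add, Ad0.mat_add]

theorem Card_matHom_injective (q : Nat.Primes) (s : Gal →* M2 k) (N : M2 k)
    (hN : ∀ g : Gv q, ∃ u : k, s (ιv q g) * N * s (ιv q g)⁻¹ = u • N) :
    Function.Injective (Card_matHom q s N hN) := by
  intro x y hxy
  apply (filSub q s N hN).incl_injective
  apply (ResMod.toRes (ιv q)).symm.injective
  exact Ad0.ext hxy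

theorem card_filSub (q : Nat.Primes) (s : Gal →* M2 k) (N : M2 k)
    (hN : ∀ g : Gv q, ∃ u : k, s (ιv q g) * N * s (ιv q g)⁻¹ = u • N) (h0 : N ≠ 0)
    (htr : N.trace = 0) : Nat.card (filSub q s N hN).Mod = Nat.card k := by
  let f : k → (filSub q s N hN).Mod := fun t =>
    (filSub q s N hN).mkMod (ResMod.toRes (ιv q)
      (Ad0.mk (t • N) (by rw [Matrix.trace_smul, htr, smul_zero]))) ⟨t, rfl⟩
  have hf : ∀ t, Card_matHom q s N hN (f t) = t • N := fun t => rfl
  have hinj : Function.Injective f := by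
    intro t t' h
    have h1 : t • N = t' • N := by rw [← hf t, ← hf t', h]
    have h2 : (t - t') • N = 0 := by rw [sub_smul, h1, sub_self]
    rcases smul_eq_zero.1 h2 with h3 | h3
    · exact sub_eq_zero.1 h3
    · exact absurd h3 h0
  have hsurj : Function.Surjective f := by
    intro x
    obtain ⟨t, ht⟩ := mem_filSub.1 ((filSub q s N hN).incl_mem x)
    refine ⟨t, Card_matHom_injective q s N hN ?_⟩
    rw [hf]
    exact ht.symm
  exact Nat.card_congr (Equiv.ofBijective f ⟨hinj, hsurj⟩).symm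

theorem nsmul_filSub (p : ℕ) [CharP k p] (q : Nat.Primes) (s : Gal →* M2 k) (N : M2 k)
    (hN : ∀ g : Gv q, ∃ u : k, s (ιv q g) * N * s (ιv q g)⁻¹ = u • N)
    (x : (filSub q s N hN).Mod) : p • x = 0 := by
  apply Card_matHom_injective q s N hN
  rw [map_nsmul, map_zero, ← Nat.cast_smul_eq_nsmul k, CharP.cast_eq_zero, zero_smul]

end Fermat.Agent.S56.Ord
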