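/-
S56 / ORD, leaf FIL-SCALAR.  For an ordinary line `k e`, the local Galois group at `p` preserves
`Fil¹ = k · Nmat e` and acts on it through the character of `μ_p`.
-/
import Fermat.Agent.S56.Ord.Mat.Conj
import Fermat.Agent.S56.Ord.Arith.Roots
import Fermat.Agent.S55.Loc.Field.Basic

set_option autoImplicit false

namespace Fermat.Agent.S56.Ord

open Fermat.Agent.S55
open Fermat.Agent.S53 (M2 Gal)

variable {k : Type} [Field k]

theorem Scalar.val_nsmul (a : ℕ) (x : Kx) : (a • x).val = x.val ^ a := by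
  simp [Kx.val]

/-- the relation `g • z = a • z` read on a root of unity -/
theorem Scalar.apply_eq_pow (p : ℕ) (q : Nat.Primes) (g : Gv q) (a : ℕ)
    (ha : ∀ z : ResMod (ιv q) (Mu p), g • z = a • z) (μ : Qb) (hμ0 : μ ≠ 0) (hμ : μ ^ p = 1) :
    ιv q g μ = μ ^ a := by
  have hx : (Additive.ofMul (Units.mk0 μ hμ0) : Kx) ∈ (muSub p).toAddSubgroup := by
    show p • (Additive.ofMul (Units.mk0 μ hμ0) : Kx) = 0
    rw [← ofMul_pow]
    have : (Units.mk0 μ hμ0) ^ p = 1 := Units.ext (by simpa using hμ)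
    rw [this]
    rfl
  have h1 := ha (ResMod.toRes (ιv q) ((muSub p).mkMod _ hx))
  have h2 := congrArg (fun m : ResMod (ιv q) (Mu p) =>
    ((muSub p).incl ((ResMod.toRes (ιv q)).symm m)).val) h1
  have h3 : ((muSub p).incl ((ResMod.toRes (ιv q)).symm
      (a • ResMod.toRes (ιv q) ((muSub p).mkMod _ hx)))).val = μ ^ a := by
    rw [map_nsmul, map_nsmul, Scalar.val_nsmul]
    rfl
  exact h2.trans h3

/-- If `g` acts on `μ_p` (as a module) by `a`, it acts on the roots of unity as the `a`-th power. -/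
theorem actsPow_of_smul_mu (p : ℕ) (q : Nat.Primes) (g : Gv q) (a : ℕ)
    (ha : ∀ z : ResMod (ιv q) (Mu p), g • z = a • z) : ActsPow p (ιv q g) a := by
  intro μ hμ
  by_cases hμ0 : μ = 0
  · subst hμ0
    have hp : p = 0 := by
      by_contra hp
      rw [zero_pow hp] at hμ
      exact zero_ne_one hμ
    subst hp
    have ha0 : a ≠ 0 := by
      rintro rfl
      have h2 := Scalar.apply_eq_pow 0 q g 0 ha (2 : Qb) two_ne_zero (pow_zero _)
      rw [pow_zero, map_ofNat] at h2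
      norm_num at h2
    rw [map_zero, zero_pow ha0]
  · exact Scalar.apply_eq_pow p q g a ha μ hμ0 hμ

theorem conj_Nmat_of_ordLine {p : Nat.Primes} {s : Gal →* M2 k} {e : Fin 2 → k}
    (h : IsOrdLine p (plc p) s e) (g : Gv p) (a : ℕ) (ha : ActsPow p (ιv p g) a) :
    s (ιv p g) * Nmat e * s (ιv p g)⁻¹ = (a : k) • Nmat e := by
  obtain ⟨z, hz, hflag⟩ := h.dec (ιv p g) (Loc.Field.ιv_mem_Dq p g) a ha
  rw [conj_Nmat (by rw [← map_mul, mul_inv_cancel, map_one]) hz hflag, mul_assoc, hz, mul_one]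

theorem filSub_stable {p : Nat.Primes} {s : Gal →* M2 k} {e : Fin 2 → k}
    (h : IsOrdLine p (plc p) s e) (g : Gv p) :
    ∃ u : k, s (ιv p g) * Nmat e * s (ιv p g)⁻¹ = u • Nmat e := by
  obtain ⟨a, ha⟩ := exists_pow p p.2 (ιv p g)
  exact ⟨a, conj_Nmat_of_ordLine h g a ha⟩

theorem Scalar.mat_nsmul {s : Gal →* M2 k} (a : ℕ) (m : Ad0 s) : (a • m).mat = a • m.mat := by
  induction a with
  | zero => simp
  | succ n ih => rw [succ_nsmul, succ_nsmul, Ad0.mat_add, ih]

theorem filSub_scalar {p : Nat.Primes} {s : Gal →* M2 k} {e : Fin 2 → k}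
    (h : IsOrdLine p (plc p) s e) (g : Gv p) (a : ℕ)
    (ha : ∀ z : ResMod (ιv p) (Mu p), g • z = a • z)
    (x : (filSub p s (Nmat e) (filSub_stable h)).Mod) : g • x = a • x := by
  apply (filSub p s (Nmat e) (filSub_stable h)).incl_injective
  rw [GSub.incl_smul, map_nsmul]
  obtain ⟨t, ht⟩ := mem_filSub.1 ((filSub p s (Nmat e) (filSub_stable h)).incl_mem x)
  generalize (filSub p s (Nmat e) (filSub_stable h)).incl x = y at ht ⊢
  apply (ResMod.toRes (ιv p)).symm.injective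
  rw [map_nsmul]
  apply Ad0.ext
  rw [Scalar.mat_nsmul, ht]
  change s (ιv p g) * ((ResMod.toRes (ιv p)).symm y).mat * s (ιv p g)⁻¹ = _
  rw [ht, Matrix.mul_smul, Matrix.smul_mul,
    conj_Nmat_of_ordLine h g a (actsPow_of_smul_mu p p g a ha), smul_comm,
    Nat.cast_smul_eq_nsmul]

end Fermat.Agent.S56.Ord
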