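/-
S56 / ORD, leaf FIL-QUOTINV.  `#H⁰_p(ad⁰/Fil¹) ≥ |k|`: the classes of `t H`, `t ∈ k`
(`H e = e`, `H ≡ -1` modulo `e`), are invariant and pairwise distinct.
-/
import Fermat.Agent.S56.Ord.Fil.Scalar

set_option autoImplicit false

namespace Fermat.Agent.S56.Ord

open Fermat.Agent.S55
open Fermat.Agent.S53 (M2 Gal)

variable {k : Type} [Field k]

theorem card_le_H0_quot [Finite k] {p : Nat.Primes} {s : Gal →* M2 k} {e : Fin 2 → k}
    (h : IsOrdLine p (plc p) s e) :
    Nat.card k ≤ Nat.card (Hsm (lvlLoc p) (filSub p s (Nmat e) (filSub_stable h)).Quot 0) := by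
  obtain ⟨H, htr, h1, h2⟩ := exists_Hmat h.ne
  set B := filSub p s (Nmat e) (filSub_stable h) with hB
  have htr' : ∀ t : k, (t • H).trace = 0 := fun t => by rw [Matrix.trace_smul, htr, smul_zero]
  let m : k → ResMod (ιv p) (Ad0 s) := fun t => ResMod.toRes (ιv p) (Ad0.mk (t • H) (htr' t))
  have hinv : ∀ t, B.proj (m t) ∈ inv0 (Gv p) B.Quot := by
    intro t g
    rw [← GSub.proj_smul, ← sub_eq_zero, ← map_sub, GSub.proj_eq_zero_iff]
    obtain ⟨a, ha⟩ := exists_pow p p.2 (ιv p g)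
    obtain ⟨z, hz, hfl⟩ := h.dec (ιv p g) (Loc.Field.ιv_mem_Dq p g) a ha
    have hgg : s (ιv p g) * s (ιv p g)⁻¹ = 1 := by rw [← map_mul, mul_inv_cancel, map_one]
    obtain ⟨t', ht'⟩ := conj_Hmat_sub hgg h.ne hfl h1 h2
    refine mem_filSub.2 ⟨t * t', ?_⟩
    change s (ιv p g) * (t • H) * s (ιv p g)⁻¹ - t • H = _
    rw [Matrix.mul_smul, Matrix.smul_mul, ← smul_sub, ht', smul_smul]
  let f : k → inv0 (Gv p) B.Quot := fun t => ⟨B.proj (m t), hinv t⟩
  have hf : Function.Injective f := by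
    intro t t' htt
    have h3 : B.proj (m t) = B.proj (m t') := congrArg Subtype.val htt
    rw [← sub_eq_zero, ← map_sub, GSub.proj_eq_zero_iff] at h3
    obtain ⟨u, hu⟩ := mem_filSub.1 h3
    have h4 : (t - t') • H = u • Nmat e := by
      rw [sub_smul]; exact hu
    exact sub_eq_zero.1 (eq_zero_of_smul_Hmat h.ne h1 h4)
  have : Finite (ResMod (ιv p) (Ad0 s)) := inferInstanceAs (Finite (Ad0 s))
  have : Finite B.Quot := Finite.of_surjective B.proj B.proj_surjective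
  rw [Nat.card_congr (Hsm.H0equiv (𝓝 := lvlLoc p) (A := B.Quot)).toEquiv]
  exact Nat.card_le_card_of_injective f hf

end Fermat.Agent.S56.Ord
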